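import Mathlib.FieldTheory.Finite.GaloisField
import Mathlib.GroupTheory.SemidirectProduct
import Mathlib.GroupTheory.SpecificGroups.ZGroup
import Mathlib.Tactic

/-!
# Cyclic and abelian numbers

If no prime factor of `n` divides `p ^ k - 1` for a prime power `p ^ k ∣ n` and `n` is cube-free,
Burnside's transfer gives every Sylow subgroup a normal complement, so a group of order `n` is
commutative. Otherwise a semidirect product is a counterexample.
-/

set_option autoImplicit false

open Subgroup
open scoped commutatorElement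

namespace FA.CyclicNumbers

variable {G : Type*} [Group G] [Finite G]

theorem normalizer_le_centralizer {p : ℕ} [hp : Fact p.Prime] (P : Sylow p G)
    (hc : ∀ a b : P, a * b = b * a)
    (h : ∀ k, 1 ≤ k → p ^ k ∣ Nat.card G → (Nat.card G).Coprime (p ^ k - 1)) :
    normalizer P ≤ centralizer (P : Set G) := by
  have key := card_dvd_of_injective _ (QuotientGroup.kerLift_injective P.normalizerMonoidHom)
  rw [normalizerMonoidHom_ker, ← index, ← relIndex] at key
  refine relIndex_eq_one.mp (Nat.eq_one_iff_not_exists_prime_dvd.2 fun q hq hqd => ?_)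
  have := Fact.mk hq
  have hPC : (P : Subgroup G) ≤ centralizer (P : Set G) := fun x hx =>
    mem_centralizer_iff.2 fun y hy => congrArg Subtype.val (hc ⟨y, hy⟩ ⟨x, hx⟩)
  have hqG : q ∣ Nat.card G :=
    hqd.trans ((relIndex_dvd_card _ _).trans (card_subgroup_dvd_card _))
  have hqp : q ≠ p := by
    rintro rfl
    exact P.not_dvd_index (hqd.trans
      ((relIndex_dvd_of_le_left _ hPC).trans (relIndex_dvd_index_of_le P.le_normalizer)))
  obtain ⟨σ, hσ⟩ := exists_prime_orderOf_dvd_card' q (hqd.trans key)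
  have hS : IsPGroup q (zpowers σ) :=
    IsPGroup.of_card (n := 1) (by rw [Nat.card_zpowers, hσ, pow_one])
  let F : Subgroup P := σ.toMonoidHom.eqLocus (MonoidHom.id P)
  have hF : MulAction.fixedPoints (zpowers σ) P = (F : Set P) := by
    ext x
    refine ⟨fun hx => hx ⟨σ, mem_zpowers σ⟩, fun hx g => ?_⟩
    have : zpowers σ ≤ MulAction.stabilizer (MulAut P) x := zpowers_le.2 hx
    exact this g.2
  have hmod := hS.card_modEq_card_fixedPoints (α := P)
  rw [hF] at hmod
  obtain ⟨a, ha⟩ := P.2.exists_card_eq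
  obtain ⟨j, hj, hFj⟩ := (Nat.dvd_prime_pow hp.out).1 (ha ▸ card_subgroup_dvd_card F)
  have hja : j < a := by
    refine hj.lt_of_ne fun e => hq.ne_one ?_
    rw [← hσ, orderOf_eq_one_iff]
    have hFtop : F = ⊤ := F.eq_top_of_card_eq (by rw [hFj, e, ha])
    exact MulEquiv.ext fun x => (hFtop ▸ mem_top x : x ∈ F)
  change Nat.card P ≡ Nat.card F [MOD q] at hmod
  rw [ha, hFj, Nat.ModEq.comm, Nat.modEq_iff_dvd' (Nat.pow_le_pow_right hp.out.pos hj)] at hmod
  have e : p ^ a - p ^ j = p ^ j * (p ^ (a - j) - 1) := by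
    rw [Nat.mul_sub_one, ← pow_add, Nat.add_sub_cancel' hj]
  rw [e] at hmod
  rcases hq.dvd_mul.1 hmod with hd | hd
  · exact hqp ((Nat.prime_dvd_prime_iff_eq hq hp.out).1 (hq.dvd_of_dvd_pow hd))
  · have hpk : p ^ (a - j) ∣ Nat.card G :=
      (pow_dvd_pow p (Nat.sub_le a j)).trans (ha ▸ card_subgroup_dvd_card _)
    exact hq.ne_one (Nat.eq_one_of_dvd_coprimes (h _ (by omega) hpk) hqG hd)

/-- The arithmetic condition for all groups of order `n` to be commutative. -/
def IsAbelianNumber (n : ℕ) : Prop :=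
  ∀ p : ℕ, p.Prime → ¬p ^ 3 ∣ n ∧ ∀ k, 1 ≤ k → p ^ k ∣ n → n.Coprime (p ^ k - 1)

theorem commute_of_isAbelianNumber (h : IsAbelianNumber (Nat.card G)) (x y : G) :
    x * y = y * x := by
  rw [← commutatorElement_eq_one_iff_mul_comm]
  by_contra hne
  obtain ⟨p, hp, hdvd⟩ := Nat.exists_prime_and_dvd (mt orderOf_eq_one_iff.1 hne)
  have := Fact.mk hp
  obtain ⟨P⟩ : Nonempty (Sylow p G) := inferInstance
  obtain ⟨a, ha⟩ := P.2.exists_card_eq
  have ha2 : a ≤ 2 := by
    by_contra hlt
    exact (h p hp).1 ((pow_dvd_pow p (show 3 ≤ a by omega)).trans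
      (ha ▸ card_subgroup_dvd_card _))
  have hc : ∀ a b : P, a * b = b * a := by
    interval_cases a
    · intro a b
      have := (Nat.card_eq_one_iff_unique.1 ha).1
      exact Subsingleton.elim _ _
    · have := isCyclic_of_prime_card (p := p) (by rwa [pow_one] at ha)
      intro a b
      obtain ⟨g, hg⟩ := IsCyclic.exists_generator (α := P)
      obtain ⟨i, rfl⟩ := hg a
      obtain ⟨j, rfl⟩ := hg b
      exact zpow_mul_comm g i j
    · exact (IsPGroup.isMulCommutative_of_card_eq_prime_sq ha).is_comm.comm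
  have hP := normalizer_le_centralizer P hc (h p hp).2
  have hker : ⁅x, y⁆ ∈ (MonoidHom.transferSylow P hP).ker := by
    rw [MonoidHom.mem_ker, map_commutatorElement, commutatorElement_eq_one_iff_mul_comm]
    exact hc _ _
  refine MonoidHom.not_dvd_card_ker_transferSylow P hP (hdvd.trans ?_)
  rw [← orderOf_mk ⁅x, y⁆ hker]
  exact orderOf_dvd_natCard _

theorem exists_noncommutative {N H : Type} [Group N] [Group H] (φ : H →* MulAut N) {h : H}
    {a : N} (hne : φ h a ≠ a) {n m : ℕ} (hn : n = Nat.card N * Nat.card H * m) :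
    ∃ (G : Type) (_ : Group G), Nat.card G = n ∧ ¬∀ x y : G, x * y = y * x := by
  refine ⟨(N ⋊[φ] H) × Multiplicative (ZMod m), inferInstance, ?_, fun hc => ?_⟩
  · rw [Nat.card_prod, SemidirectProduct.card, Nat.card_congr Multiplicative.toAdd,
      Nat.card_zmod, hn]
  · have := congrArg Prod.fst (hc (SemidirectProduct.inr h, 1) (SemidirectProduct.inl a, 1))
    simp only [Prod.fst_mul] at this
    exact hne (SemidirectProduct.inl_injective
      (by rw [SemidirectProduct.inl_aut, this, mul_assoc, ← map_mul, mul_inv_cancel, map_one,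
        mul_one]))

/-- The shears of `(ℤ/p)²`. -/
def shear (p : ℕ) : Multiplicative (ZMod p) →* MulAut (Multiplicative (ZMod p × ZMod p)) where
  toFun c := AddEquiv.toMultiplicative
    { toFun := fun v => (v.1 + c.toAdd * v.2, v.2)
      invFun := fun v => (v.1 - c.toAdd * v.2, v.2)
      left_inv := fun v => by simp
      right_inv := fun v => by simp
      map_add' := fun v w => Prod.ext (by simp only [Prod.fst_add, Prod.snd_add]; ring) rfl }
  map_one' := MulEquiv.ext fun v => Multiplicative.toAdd.injective (Prod.ext (by simp) rfl)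
  map_mul' c d := MulEquiv.ext fun v => Multiplicative.toAdd.injective
    (Prod.ext (by simp; ring) rfl)

/-- The units of a ring acting on its additive group. -/
def scaling (F : Type) [Ring F] : Fˣ →* MulAut (Multiplicative F) where
  toFun u := AddEquiv.toMultiplicative
    { toFun := fun v => (u : F) * v
      invFun := fun v => ((u⁻¹ : Fˣ) : F) * v
      left_inv := fun v => by simp [← mul_assoc]
      right_inv := fun v => by simp [← mul_assoc]
      map_add' := fun v w => mul_add _ v w }
  map_one' := MulEquiv.ext fun v => Multiplicative.toAdd.injective (by simp)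
  map_mul' u w := MulEquiv.ext fun v => Multiplicative.toAdd.injective (by simp [mul_assoc])

theorem exists_of_not_isAbelianNumber {n : ℕ} (h : ¬IsAbelianNumber n) :
    ∃ (G : Type) (_ : Group G), Nat.card G = n ∧ ¬∀ x y : G, x * y = y * x := by
  simp only [IsAbelianNumber, not_forall, Classical.not_and_iff_not_or_not, not_not,
    exists_prop] at h
  obtain ⟨p, hp, ⟨m, hm⟩ | ⟨k, hk, hkn, hcop⟩⟩ := h
  · have := Fact.mk hp
    refine exists_noncommutative (shear p) (h := Multiplicative.ofAdd 1)
      (a := Multiplicative.ofAdd (0, 1)) (fun e => ?_) (n := n) (m := m) ?_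
    · have := congrArg (fun v => (Multiplicative.toAdd v).1) e
      simp [shear] at this
    · rw [hm, Nat.card_congr Multiplicative.toAdd, Nat.card_prod, Nat.card_zmod,
        Nat.card_congr Multiplicative.toAdd, Nat.card_zmod]
      ring
  · have := Fact.mk hp
    obtain ⟨q, hq, hqn, hqd⟩ := Nat.Prime.not_coprime_iff_dvd.1 hcop
    have := Fact.mk hq
    have hk0 : k ≠ 0 := by omega
    obtain ⟨g, hg⟩ := exists_prime_orderOf_dvd_card' (G := (GaloisField p k)ˣ) q
      (by rwa [Nat.card_units, GaloisField.card p k hk0])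
    have hqp : q.Coprime (p ^ k) := by
      refine hq.coprime_iff_not_dvd.2 fun hd => hq.ne_one ?_
      have h1 := Nat.dvd_sub hd hqd
      rw [Nat.sub_sub_self (Nat.one_le_pow _ _ hp.pos)] at h1
      exact Nat.dvd_one.1 h1
    obtain ⟨m, hm⟩ := hqp.mul_dvd_of_dvd_of_dvd hqn hkn
    refine exists_noncommutative ((scaling (GaloisField p k)).comp (zpowers g).subtype)
      (h := ⟨g, mem_zpowers g⟩) (a := Multiplicative.ofAdd 1) (fun e => hq.ne_one ?_)
      (n := n) (m := m) ?_
    · have := congrArg Multiplicative.toAdd e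
      simp [scaling] at this
      rw [← hg, orderOf_eq_one_iff]
      exact this
    · rw [hm, Nat.card_congr Multiplicative.toAdd, GaloisField.card p k hk0, Nat.card_zpowers,
        hg]
      ring

theorem isAbelianNumber_of_coprime {n : ℕ} (h : n.Coprime n.totient) :
    IsAbelianNumber n ∧ Squarefree n := by
  have hsq : ∀ p : ℕ, p.Prime → ¬p ^ 2 ∣ n := fun p hp hd => hp.ne_one
    (Nat.eq_one_of_dvd_coprimes h ((dvd_pow_self p two_ne_zero).trans hd)
      (((dvd_mul_right p (p - 1)).trans (by rw [Nat.totient_prime_pow hp two_pos]; simp)).trans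
        (Nat.totient_dvd_of_dvd hd)))
  refine ⟨fun p hp => ⟨fun hd => hsq p hp ((pow_dvd_pow p (by norm_num)).trans hd),
    fun k hk hkn => ?_⟩, Nat.squarefree_iff_prime_squarefree.2 fun p hp => by
      rw [← sq]
      exact hsq p hp⟩
  obtain rfl : k = 1 := by
    by_contra hne
    exact hsq p hp ((pow_dvd_pow p (by omega)).trans hkn)
  rw [pow_one] at hkn ⊢
  exact h.coprime_dvd_right (Nat.totient_prime hp ▸ Nat.totient_dvd_of_dvd hkn)

theorem isCyclic_of_coprime (h : (Nat.card G).Coprime (Nat.card G).totient) : IsCyclic G := by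
  obtain ⟨hA, hsq⟩ := isAbelianNumber_of_coprime h
  let : CommGroup G :=
    { (inferInstance : Group G) with mul_comm := commute_of_isAbelianNumber hA }
  have := IsZGroup.of_squarefree hsq
  infer_instance

theorem exists_noncyclic {n : ℕ} (hn : 0 < n) (h : ¬n.Coprime n.totient) :
    ∃ (G : Type) (_ : Group G), Nat.card G = n ∧ ¬IsCyclic G := by
  obtain ⟨p, hp, hpn, hpt⟩ := Nat.Prime.not_coprime_iff_dvd.1 h
  by_cases hp2 : p ^ 2 ∣ n
  · obtain ⟨m, hm⟩ := hp2
    refine ⟨Multiplicative (ZMod p) × Multiplicative (ZMod (p * m)), inferInstance, ?_, ?_⟩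
    · rw [Nat.card_prod, Nat.card_congr Multiplicative.toAdd, Nat.card_zmod,
        Nat.card_congr Multiplicative.toAdd, Nat.card_zmod, hm]
      ring
    · rw [Group.isCyclic_prod_iff]
      rintro ⟨-, -, hc⟩
      rw [Nat.card_congr Multiplicative.toAdd, Nat.card_zmod,
        Nat.card_congr Multiplicative.toAdd, Nat.card_zmod] at hc
      exact hp.ne_one (Nat.eq_one_of_dvd_coprimes hc dvd_rfl (dvd_mul_right p m))
  · obtain ⟨m, rfl⟩ := hpn
    have hpm : ¬p ∣ m := fun hd => hp2 (by rw [sq]; exact mul_dvd_mul_left p hd)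
    rw [Nat.totient_mul (hp.coprime_iff_not_dvd.2 hpm), Nat.totient_prime hp] at hpt
    have hpt' : p ∣ m.totient := (hp.dvd_mul.1 hpt).resolve_left fun hd => by
      have := hp.two_le
      have := Nat.le_of_dvd (by omega) hd
      omega
    have hprod := hpt'.mul_right (∏ q ∈ m.primeFactors, q)
    rw [Nat.totient_mul_prod_primeFactors] at hprod
    obtain ⟨q, hq, hqd⟩ := hp.prime.exists_mem_finset_dvd ((hp.dvd_mul.1 hprod).resolve_left hpm)
    have hq' := Nat.mem_primeFactors.1 hq
    obtain ⟨G, hG, hcard, hne⟩ := exists_of_not_isAbelianNumber (n := p * m) fun hA => by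
      refine hp.ne_one (Nat.eq_one_of_dvd_coprimes ((hA q hq'.1).2 1 le_rfl ?_) ?_ ?_)
      · rw [pow_one]
        exact hq'.2.1.trans (dvd_mul_left m p)
      · exact dvd_mul_right p m
      · rwa [pow_one]
    refine ⟨G, hG, hcard, fun hcyc => hne fun x y => ?_⟩
    obtain ⟨g, hg⟩ := IsCyclic.exists_generator (α := G)
    obtain ⟨i, rfl⟩ := hg x
    obtain ⟨j, rfl⟩ := hg y
    exact zpow_mul_comm g i j

end FA.CyclicNumbers
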